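import Mathlib
import Fermat.Agent.PT.Loc.Iface

/-!
# W3-PT / PT-LOC, leaf KUM-BASIC (helper79)

`h79k_kumBasic : KumBasic`: for `ζ ∈ K` a primitive `p`-th root of unity and `B ≠ 0` with
`B ^ p ∈ K`, the Kummer character `kum p ζ B` is a continuous additive character of `G_K` and
`g B = ζ ^ (kum p ζ B g) * B` for `g ∈ G_K`.
-/

set_option autoImplicit false

open scoped Classical

noncomputable section

namespace Fermat.Agent.PT.Loc

variable {q : ℕ} [Fact q.Prime] {p : ℕ} [Fact p.Prime]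

/-- the exponent of `y / B` as a power of `ζ`. -/
def h79k_expo (p : ℕ) (ζ B y : Om q) : ZMod p :=
  if h : ∃ k : ZMod p, y = ζ ^ k.val * B then h.choose else 0

theorem h79k_kum_eq (ζ B : Om q) (g : Gq q) : kum p ζ B g = h79k_expo p ζ B (g B) := rfl

theorem h79k_expo_spec {ζ B y : Om q} (h : ∃ k : ZMod p, y = ζ ^ k.val * B) :
    y = ζ ^ (h79k_expo p ζ B y).val * B := by
  unfold h79k_expo
  rw [dif_pos h]
  exact h.choose_spec

/-- powers of a primitive root with exponents in `ZMod p`. -/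
theorem h79k_pow_val_injective {ζ : Om q} (hζ : IsPrimitiveRoot ζ p) {a b : ZMod p}
    (h : ζ ^ a.val = ζ ^ b.val) : a = b := by
  have hp : p.Prime := Fact.out
  haveI : NeZero p := ⟨hp.ne_zero⟩
  have h1 := hζ.pow_inj (ZMod.val_lt a) (ZMod.val_lt b) h
  exact ZMod.val_injective p h1

theorem h79k_pow_val_add {ζ : Om q} (hζ : IsPrimitiveRoot ζ p) (a b : ZMod p) :
    ζ ^ (a + b).val = ζ ^ a.val * ζ ^ b.val := by
  have hp : p.Prime := Fact.out
  haveI : NeZero p := ⟨hp.ne_zero⟩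
  rw [← pow_add, ZMod.val_add, ← Nat.mod_add_div (a.val + b.val) p]
  simp only [Nat.add_mul_mod_self_left, Nat.mod_mod]
  rw [pow_add (a := ζ) (m := (a.val + b.val) % p), pow_mul, hζ.pow_eq_one, one_pow, mul_one]

theorem h79k_pow_val_natCast {ζ : Om q} (hζ : IsPrimitiveRoot ζ p) (k : ℕ) :
    ζ ^ ((k : ZMod p)).val = ζ ^ k := by
  rw [ZMod.val_natCast]
  conv_rhs => rw [← Nat.mod_add_div k p]
  rw [pow_add, pow_mul, hζ.pow_eq_one, one_pow, mul_one]

/-- for `g ∈ G_K` the quotient `g B / B` is a power of `ζ`. -/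
theorem h79k_exists_expo {K : LF q} {ζ B : Om q} (hζK : ζ ∈ K) (hζ : IsPrimitiveRoot ζ p)
    (hB : B ≠ 0) (hBp : B ^ p ∈ K) {g : Gq q} (hg : g ∈ GK K) :
    ∃ k : ZMod p, g B = ζ ^ k.val * B := by
  have hp : p.Prime := Fact.out
  haveI : NeZero p := ⟨hp.ne_zero⟩
  have h1 : (g B) ^ p = B ^ p := by
    rw [← map_pow]
    exact hg ⟨B ^ p, hBp⟩
  have h2 : (g B / B) ^ p = 1 := by
    rw [div_pow, h1, div_self (pow_ne_zero p hB)]
  obtain ⟨i, -, hi⟩ := hζ.eq_pow_of_pow_eq_one h2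
  refine ⟨(i : ZMod p), ?_⟩
  rw [h79k_pow_val_natCast hζ, hi, div_mul_cancel₀ _ hB]

/-- **KUM-BASIC.** -/
theorem h79k_kumBasic : KumBasic := by
  intro q _ p _ K _ ζ B hζK hζ hB hBp
  have hspec : ∀ g ∈ GK K, g B = ζ ^ (kum p ζ B g).val * B := fun g hg => by
    rw [h79k_kum_eq]
    exact h79k_expo_spec (h79k_exists_expo hζK hζ hB hBp hg)
  refine ⟨?_, ?_, hspec⟩
  · -- additivity
    intro g hg h hh
    have hgh := hspec (g * h) ((GK K).mul_mem hg hh)
    have h1 : (g * h) B = ζ ^ (kum p ζ B g + kum p ζ B h).val * B := by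
      have e : (g * h) B = g (h B) := rfl
      rw [e, hspec h hh, map_mul, map_pow, hspec g hg, h79k_pow_val_add hζ]
      have hgζ : g ζ = ζ := hg ⟨ζ, hζK⟩
      rw [hgζ]
      ring
    rw [h1] at hgh
    have h2 := mul_right_cancel₀ hB hgh
    exact (h79k_pow_val_injective hζ h2).symm
  · -- continuity
    have halg : IsIntegral ℚ_[q] B := (PadicAlgCl.isAlgebraic q).isIntegral.isIntegral B
    haveI : FiniteDimensional ℚ_[q] (IntermediateField.adjoin ℚ_[q] {B}) :=
      IntermediateField.adjoin.finiteDimensional halg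
    refine ⟨K ⊔ IntermediateField.adjoin ℚ_[q] {B}, inferInstance, le_sup_left,
      fun g _ s hs => ?_⟩
    have hsB : s B = B := by
      have h1 : B ∈ K ⊔ IntermediateField.adjoin ℚ_[q] {B} :=
        (le_sup_right : IntermediateField.adjoin ℚ_[q] {B} ≤ _)
          (IntermediateField.mem_adjoin_simple_self ℚ_[q] B)
      exact hs ⟨B, h1⟩
    rw [h79k_kum_eq, h79k_kum_eq]
    have e : (g * s) B = g B := by
      have : (g * s) B = g (s B) := rfl
      rw [this, hsB]
    rw [e]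

end Fermat.Agent.PT.Loc
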