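import Mathlib
import Fermat.Agent.PT.Loc.Iface

/-!
# W3-PT / PT-LOC, leaf LOC-KUM-CLASS (helper7)

`h7kc_kumClass_of : MCH90 → KumClass`: every continuous character `χ : G_K → 𝔽_p` of the absolute
Galois group of a local field `K ∋ μ_p` is a Kummer character.

Proof: `g ↦ ζ ^ χ(g)` is a continuous `1`-cocycle of `G_K` with values in `(Om q)ˣ` (`ζ ∈ K`);
Hilbert 90 (`MCH90`) gives `a` with `g a = ζ ^ χ(g) · a`; then `a ^ p` is `G_K`-fixed, hence lies
in `K`, and `kum p ζ a = χ` on `G_K` because `ζ` is a primitive `p`-th root of unity.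
-/

set_option autoImplicit false

open scoped Classical

noncomputable section

namespace Fermat.Agent.PT.Loc

variable {q : ℕ} [Fact q.Prime]

/-- the value of `kum` is determined by the defining relation. -/
theorem h7kc_kum_eq {p : ℕ} [Fact p.Prime] {ζ B : Om q} (hζ : IsPrimitiveRoot ζ p) (hB : B ≠ 0)
    (g : Gq q) (k : ZMod p) (hk : g B = ζ ^ k.val * B) : kum p ζ B g = k := by
  have hex : ∃ k : ZMod p, g B = ζ ^ k.val * B := ⟨k, hk⟩
  have hdef : kum p ζ B g = hex.choose := by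
    unfold kum
    rw [dif_pos hex]
  have hch := hex.choose_spec
  rw [hdef]
  have hpow : ζ ^ (hex.choose).val = ζ ^ k.val := by
    have h1 : ζ ^ (hex.choose).val * B = ζ ^ k.val * B := by rw [← hch, ← hk]
    exact mul_right_cancel₀ hB h1
  have hval : (hex.choose).val = k.val :=
    hζ.pow_inj (ZMod.val_lt _) (ZMod.val_lt _) hpow
  exact ZMod.val_injective p hval

/-- an element fixed by `G_K` lies in `K`. -/
theorem h7kc_mem_of_fixed (K : LF q) (x : Om q) (hx : ∀ g ∈ GK K, g x = x) : x ∈ K := by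
  have h := InfiniteGalois.fixedField_fixingSubgroup (k := ℚ_[q]) (K := PadicAlgCl q) K
  rw [← h, IntermediateField.mem_fixedField_iff]
  exact hx

/-- LOC-KUM-CLASS: Hilbert 90 implies that every continuous character is a Kummer character. -/
theorem h7kc_kumClass_of (h90 : MCH90) : KumClass := by
  intro q _ p _ K _ ζ hζK hζ χ hχ hcont
  have hp : 0 < p := (Fact.out : p.Prime).pos
  have hζp : ζ ^ p = 1 := hζ.pow_eq_one
  have hζ0 : ζ ≠ 0 := by
    intro h0
    rw [h0, zero_pow hp.ne'] at hζp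
    exact zero_ne_one hζp
  -- the unit `ζ`
  let ζu : (Om q)ˣ := Units.mk0 ζ hζ0
  have hζu : (ζu : Om q) = ζ := rfl
  have hζup : ζu ^ p = 1 := by
    apply Units.ext
    rw [Units.val_pow_eq_pow_val, hζu, hζp, Units.val_one]
  have hfixζ : ∀ g ∈ GK K, g ζ = ζ := fun g hg => hg ⟨ζ, hζK⟩
  have hfixζu : ∀ g ∈ GK K, g • ζu = ζu := by
    intro g hg
    apply Units.ext
    exact hfixζ g hg
  -- the cocycle
  let x : Gq q → (Om q)ˣ := fun g => ζu ^ (χ g).val
  have hx1 : MCoc1 K x := by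
    intro g hg h hh
    change ζu ^ (χ (g * h)).val = g • (ζu ^ (χ h).val) * ζu ^ (χ g).val
    rw [smul_pow', hfixζu g hg, hχ g hg h hh, ← pow_add]
    have hmod : (χ g + χ h).val % p = ((χ h).val + (χ g).val) % p := by
      rw [ZMod.val_add, Nat.mod_mod, add_comm]
    have e1 : ζu ^ (χ g + χ h).val = ζu ^ ((χ g + χ h).val % p) := by
      conv_lhs => rw [← Nat.div_add_mod (χ g + χ h).val p]
      rw [pow_add, pow_mul, hζup, one_pow, one_mul]
    have e2 : ζu ^ ((χ h).val + (χ g).val) = ζu ^ (((χ h).val + (χ g).val) % p) := by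
      conv_lhs => rw [← Nat.div_add_mod ((χ h).val + (χ g).val) p]
      rw [pow_add, pow_mul, hζup, one_pow, one_mul]
    rw [e1, e2, hmod]
  have hx2 : Cont1 K x := by
    obtain ⟨F, hF, hKF, hinv⟩ := hcont
    refine ⟨F, hF, hKF, ?_⟩
    intro g hg s hs
    change ζu ^ (χ (g * s)).val = ζu ^ (χ g).val
    rw [hinv g hg s hs]
  obtain ⟨a, ha⟩ := h90 q K x hx1 hx2
  -- `g a = ζ ^ χ(g) * a`
  have hga : ∀ g ∈ GK K, g (a : Om q) = ζ ^ (χ g).val * (a : Om q) := by
    intro g hg
    have h1 : x g * a = g • a := by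
      rw [ha g hg, div_mul_cancel]
    have h2 : ((x g * a : (Om q)ˣ) : Om q) = ((g • a : (Om q)ˣ) : Om q) := by rw [h1]
    have h3 : ((g • a : (Om q)ˣ) : Om q) = g (a : Om q) := rfl
    rw [← h3, ← h2, Units.val_mul]
    change (ζu ^ (χ g).val : (Om q)ˣ).val * (a : Om q) = _
    rw [Units.val_pow_eq_pow_val, hζu]
  refine ⟨(a : Om q), a.ne_zero, ?_, ?_⟩
  · apply h7kc_mem_of_fixed K
    intro g hg
    rw [map_pow, hga g hg, mul_pow, ← pow_mul, mul_comm (χ g).val p, pow_mul, hζp, one_pow,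
      one_mul]
  · intro g hg
    exact (h7kc_kum_eq hζ a.ne_zero g (χ g) (hga g hg)).symm

end Fermat.Agent.PT.Loc
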